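/-
S25 / block HILB / leaf H2 (helper431).

The diagonal ideal `ker (B ⊗[k] B → B)` is an invertible `B ⊗[k] B`-module as soon as
`Ω[B⁄k]` is an invertible `B`-module, `B` is essentially of finite type over `k`
and `B ⊗[k] B` is a domain.

Also a general criterion: a nonzero ideal of a domain which is "locally principal at every
maximal ideal" (in the elementwise sense `LocPrincipal`) is an invertible module.
-/
import Mathlib

set_option autoImplicit false

namespace Fermat.Agent.S25.H431

open TensorProduct

section LocallyPrincipal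

variable {R : Type*} [CommRing R]

/-- Elementwise form of "locally principal at every maximal ideal". -/
def LocPrincipal (I : Ideal R) : Prop :=
  ∀ m : Ideal R, m.IsMaximal → ∃ a ∈ I, ∃ s : R, s ∉ m ∧ ∀ x ∈ I, s * x ∈ Ideal.span {a}

/-- A nonzero ideal of a domain that is locally principal at every maximal ideal is an
invertible module. (No finiteness hypothesis is needed.) -/
theorem invertible_of_locPrincipal [IsDomain R] (I : Ideal R) (hI : I ≠ ⊥)
    (h : LocPrincipal I) : Module.Invertible R I := by
  classical
  let K := FractionRing R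
  have hinj : Function.Injective (Algebra.linearMap R K) :=
    FaithfulSMul.algebraMap_injective R K
  let It : Submodule R K := Submodule.map (Algebra.linearMap R K) I
  let J : Submodule R K := 1 / It
  have h1 : It * J = 1 := by
    refine le_antisymm Submodule.mul_one_div_le_one ?_
    rw [Submodule.one_le]
    by_contra hone
    let 𝔞 : Ideal R := Submodule.comap (Algebra.linearMap R K) (It * J)
    have h𝔞 : 𝔞 ≠ ⊤ := by
      intro htop
      apply hone
      have : (1 : R) ∈ 𝔞 := by rw [htop]; trivial
      simpa [𝔞] using this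
    obtain ⟨m, hm, hle⟩ := Ideal.exists_le_maximal 𝔞 h𝔞
    obtain ⟨a, ha, s, hs, hsx⟩ := h m hm
    have hs0 : s ≠ 0 := by
      rintro rfl
      exact hs m.zero_mem
    have ha0 : a ≠ 0 := by
      rintro rfl
      apply hI
      rw [eq_bot_iff]
      intro x hx
      have := hsx x hx
      rw [Ideal.span_singleton_zero, Ideal.mem_bot] at this
      rw [Ideal.mem_bot]
      exact (mul_eq_zero.mp this).resolve_left hs0
    have haK : algebraMap R K a ≠ 0 := by
      rwa [Ne, map_eq_zero_iff _ (FaithfulSMul.algebraMap_injective R K)]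
    have htJ : algebraMap R K s / algebraMap R K a ∈ J := by
      rw [Submodule.mem_div_iff_forall_mul_mem]
      rintro y ⟨x, hx, rfl⟩
      obtain ⟨c, hc⟩ := Ideal.mem_span_singleton'.mp (hsx x hx)
      rw [Submodule.mem_one]
      refine ⟨c, ?_⟩
      rw [Algebra.linearMap_apply, div_mul_eq_mul_div, ← map_mul, ← hc, map_mul,
        mul_div_assoc, div_self haK, mul_one]
    have haIt : algebraMap R K a ∈ It := ⟨a, ha, rfl⟩
    have := Submodule.mul_mem_mul haIt htJ
    rw [mul_div_cancel₀ _ haK] at this
    exact hs (hle this)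
  let u : (Submodule R K)ˣ := Units.mkOfMulEqOne It J h1
  have : Module.Invertible R (u : Submodule R K) := inferInstance
  have e : (u : Submodule R K) ≃ₗ[R] I :=
    (Submodule.equivMapOfInjective (Algebra.linearMap R K) hinj I).symm
  exact Module.Invertible.congr e

end LocallyPrincipal

section RankOne

variable {R : Type*} [CommRing R] {M : Type*} [AddCommGroup M] [Module R M]

/-- In an invertible module any two elements are "proportional": `f m • x = f x • m`. -/
theorem dual_apply_smul_comm [Module.Invertible R M] (f : Module.Dual R M) (m x : M) :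
    f m • x = f x • m := by
  have h := congrArg (fun t => (TensorProduct.lid R M) (f.rTensor M t))
    (Module.Invertible.tmul_comm (R := R) (m₁ := m) (m₂ := x))
  simpa using h

/-- For an invertible module and a proper ideal `n`, some value `f m` of a functional lies
outside `n`. -/
theorem exists_dual_apply_not_mem [Module.Invertible R M] (n : Ideal R) (hn : n ≠ ⊤) :
    ∃ (f : Module.Dual R M) (m : M), f m ∉ n := by
  by_contra hcon
  push Not at hcon
  have hall : ∀ t : Module.Dual R M ⊗[R] M, contractLeft R M t ∈ n := by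
    intro t
    induction t using TensorProduct.induction_on with
    | zero => simp
    | tmul f m => simpa using hcon f m
    | add x y hx hy => rw [map_add]; exact n.add_mem hx hy
  obtain ⟨t, ht⟩ := (Module.Invertible.bijective (R := R) (M := M)).2 1
  exact hn (n.eq_top_iff_one.mpr (ht ▸ hall t))

end RankOne

section Diagonal

variable (k B : Type*) [CommRing k] [CommRing B] [Algebra k B]

/-- Local generation of the diagonal ideal at a maximal ideal containing it. -/
theorem diagonal_le_span_sup [Module.Invertible B Ω[B⁄k]]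
    (m : Ideal (B ⊗[k] B)) (hm : m.IsMaximal) (hIm : KaehlerDifferential.ideal k B ≤ m) :
    ∃ a ∈ KaehlerDifferential.ideal k B,
      KaehlerDifferential.ideal k B ≤ Ideal.span {a} ⊔ m • KaehlerDifferential.ideal k B := by
  set I := KaehlerDifferential.ideal k B with hIdef
  let n : Ideal B := m.comap (algebraMap B (B ⊗[k] B))
  have hn : n ≠ ⊤ := by
    intro h
    apply hm.ne_top
    rw [Ideal.eq_top_iff_one]
    have : (1 : B) ∈ n := by rw [h]; trivial
    have h2 : algebraMap B (B ⊗[k] B) 1 ∈ m := this
    rwa [map_one] at h2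
  obtain ⟨f, ω, hfω⟩ := exists_dual_apply_not_mem (M := Ω[B⁄k]) n hn
  obtain ⟨⟨a, ha⟩, rfl⟩ := KaehlerDifferential.fromIdeal_surjective k B ω
  refine ⟨a, ha, ?_⟩
  set u : B := f (KaehlerDifferential.fromIdeal k B ⟨a, ha⟩) with hu
  have hum : algebraMap B (B ⊗[k] B) u ∉ m := hfω
  obtain ⟨v, i, hi, hvi⟩ := hm.exists_inv hum
  intro x hx
  set c : B := f (KaehlerDifferential.fromIdeal k B ⟨x, hx⟩) with hc
  have hcomm := dual_apply_smul_comm f (KaehlerDifferential.fromIdeal k B ⟨a, ha⟩)
    (KaehlerDifferential.fromIdeal k B ⟨x, hx⟩)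
  -- `u • [x] = c • [a]` in `Ω`
  have hsq : algebraMap B (B ⊗[k] B) u * x - algebraMap B (B ⊗[k] B) c * a ∈ I ^ 2 := by
    have h0 : KaehlerDifferential.fromIdeal k B
        (algebraMap B (B ⊗[k] B) u • (⟨x, hx⟩ : I) - algebraMap B (B ⊗[k] B) c • ⟨a, ha⟩) = 0 := by
      rw [map_sub, map_smul, map_smul, algebraMap_smul, algebraMap_smul, sub_eq_zero]
      exact hcomm
    have := (Ideal.toCotangent_eq_zero I _).mp h0
    simpa using this
  have hI2 : I ^ 2 ≤ m • I := by
    rw [pow_two]
    exact Ideal.mul_mono_left hIm
  have hx_eq : x = v * (algebraMap B (B ⊗[k] B) c * a)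
      + (v * (algebraMap B (B ⊗[k] B) u * x - algebraMap B (B ⊗[k] B) c * a) + i * x) := by
    have : x = (v * algebraMap B (B ⊗[k] B) u + i) * x := by rw [hvi, one_mul]
    calc x = (v * algebraMap B (B ⊗[k] B) u + i) * x := this
      _ = _ := by ring
  rw [hx_eq]
  refine Submodule.add_mem_sup ?_ ?_
  · rw [Ideal.mem_span_singleton']
    exact ⟨v * algebraMap B (B ⊗[k] B) c, by ring⟩
  · refine Submodule.add_mem _ ?_ ?_
    · exact Ideal.mul_mem_left _ _ (hI2 hsq)
    · exact Submodule.smul_mem_smul hi hx

open scoped Pointwise in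
/-- The diagonal ideal is locally principal at every maximal ideal. -/
theorem diagonal_locPrincipal [Algebra.EssFiniteType k B] [Module.Invertible B Ω[B⁄k]] :
    LocPrincipal (KaehlerDifferential.ideal k B) := by
  intro m hm
  by_cases hIm : KaehlerDifferential.ideal k B ≤ m
  · obtain ⟨a, ha, hle⟩ := diagonal_le_span_sup k B m hm hIm
    obtain ⟨r, hr1, hr⟩ := Submodule.exists_sub_one_mem_and_smul_le_of_fg_of_le_sup
      (I := m) (N := Ideal.span {a}) (N' := KaehlerDifferential.ideal k B)
      (P := KaehlerDifferential.ideal k B) (KaehlerDifferential.ideal_fg k B) le_rfl hle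
    refine ⟨a, ha, r, ?_, ?_⟩
    · intro hrm
      apply hm.ne_top
      rw [Ideal.eq_top_iff_one]
      have := m.sub_mem hrm hr1
      simpa using this
    · intro x hx
      have := hr (Submodule.smul_mem_pointwise_smul x r _ hx)
      simpa using this
  · obtain ⟨a, ha, ham⟩ := Set.not_subset.mp hIm
    exact ⟨a, ha, a, ham, fun x _ => Ideal.mem_span_singleton'.mpr ⟨x, mul_comm x a⟩⟩

/-- **H2.** The diagonal ideal `ker (B ⊗[k] B → B)` is an invertible `B ⊗[k] B`-module,
provided `Ω[B⁄k]` is an invertible `B`-module, `B` is essentially of finite type over `k` and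
`B ⊗[k] B` is a domain. -/
theorem diagonal_invertible [Algebra.EssFiniteType k B] [IsDomain (B ⊗[k] B)]
    [Module.Invertible B Ω[B⁄k]] :
    Module.Invertible (B ⊗[k] B) (KaehlerDifferential.ideal k B) := by
  refine invertible_of_locPrincipal _ ?_ (diagonal_locPrincipal k B)
  intro hbot
  -- if the diagonal ideal vanished, `Ω` would be trivial, hence `B` would be trivial
  have hsub : Subsingleton Ω[B⁄k] := by
    refine ⟨fun x y => ?_⟩
    obtain ⟨⟨a, ha⟩, rfl⟩ := KaehlerDifferential.fromIdeal_surjective k B x
    obtain ⟨⟨b, hb⟩, rfl⟩ := KaehlerDifferential.fromIdeal_surjective k B y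
    have ha0 : a = 0 := by rw [hbot] at ha; exact ha
    have hb0 : b = 0 := by rw [hbot] at hb; exact hb
    subst ha0 hb0
    rfl
  have h10 : (1 : B) = 0 := by
    apply FaithfulSMul.eq_of_smul_eq_smul (α := Ω[B⁄k])
    intro x
    exact Subsingleton.elim _ _
  have h2 : (1 : B ⊗[k] B) = 0 := by
    have h3 := congrArg (algebraMap B (B ⊗[k] B)) h10
    rwa [map_one, map_zero] at h3
  exact one_ne_zero h2

end Diagonal

end Fermat.Agent.S25.H431
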