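/-
S25 / block HILB (helper431): the kernel lemma for H3 ("Hilb = Div").

For a `k`-algebra `B` whose diagonal ideal `D = ker (B ⊗ B → B)` is an invertible `B ⊗ B`-module
and any `B`-algebra `Q`, the kernel of `Q ⊗[k] B → Q`, `q ⊗ b ↦ q * b`, is an invertible
`Q ⊗[k] B`-module (it is the base change of `D`).
-/
import Mathlib

set_option autoImplicit false

open TensorProduct

namespace Fermat.Agent.S25.H431

section Kernel

variable (k B Q : Type*) [CommRing k] [CommRing B] [Algebra k B] [CommRing Q] [Algebra k Q]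
  [Algebra B Q] [IsScalarTower k B Q]

/-- `φ : B ⊗ B → Q ⊗ B`, `b ⊗ b' ↦ [b] ⊗ b'`. -/
noncomputable def diagMap : B ⊗[k] B →ₐ[k] Q ⊗[k] B :=
  Algebra.TensorProduct.map (IsScalarTower.toAlgHom k B Q) (AlgHom.id k B)

/-- `μ : Q ⊗ B → Q`, `q ⊗ b ↦ q * [b]`. -/
noncomputable def graphMap : Q ⊗[k] B →ₐ[Q] Q :=
  Algebra.TensorProduct.lift (AlgHom.id Q Q) (IsScalarTower.toAlgHom k B Q)
    (fun _ _ => Commute.all _ _)

@[simp] theorem diagMap_tmul (b b' : B) :
    diagMap k B Q (b ⊗ₜ b') = algebraMap B Q b ⊗ₜ b' := by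
  simp [diagMap]

@[simp] theorem graphMap_tmul (q : Q) (b : B) :
    graphMap k B Q (q ⊗ₜ b) = q * algebraMap B Q b := by
  simp [graphMap]

theorem graphMap_diagMap (x : B ⊗[k] B) :
    graphMap k B Q (diagMap k B Q x) = algebraMap B Q (Algebra.TensorProduct.lmul' k x) := by
  induction x with
  | zero => simp
  | tmul b b' => simp
  | add x y hx hy => simp [hx, hy]

/-- `ρ(x) = x - mult(x) ⊗ 1`: retraction of `B ⊗ B` onto the diagonal ideal. -/
noncomputable def diagRetract (x : B ⊗[k] B) : KaehlerDifferential.ideal k B :=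
  ⟨x - (Algebra.TensorProduct.lmul' k x) ⊗ₜ[k] (1 : B), by
    simp [RingHom.mem_ker]⟩

theorem diagRetract_add (x y : B ⊗[k] B) :
    diagRetract k B (x + y) = diagRetract k B x + diagRetract k B y := by
  apply Subtype.ext
  simp only [diagRetract, map_add, add_tmul, Submodule.coe_add]
  abel

theorem diagRetract_zero : diagRetract k B 0 = 0 := by
  apply Subtype.ext
  simp [diagRetract]

theorem diagRetract_of_mem (d : KaehlerDifferential.ideal k B) :
    diagRetract k B (d : B ⊗[k] B) = d := by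
  apply Subtype.ext
  have h : Algebra.TensorProduct.lmul' k (d : B ⊗[k] B) = 0 := RingHom.mem_ker.mp d.2
  simp [diagRetract, h]

theorem diagRetract_left_mul (b : B) (x : B ⊗[k] B) :
    diagRetract k B ((b ⊗ₜ[k] (1 : B)) * x) = (b ⊗ₜ[k] (1 : B)) • diagRetract k B x := by
  apply Subtype.ext
  simp only [diagRetract, map_mul, Algebra.TensorProduct.lmul'_apply_tmul, mul_one,
    Submodule.coe_smul, smul_eq_mul, mul_sub, Algebra.TensorProduct.tmul_mul_tmul]

/-- the `B ⊗ B`-algebra structure on `Q ⊗ B` given by `diagMap` -/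
@[reducible] noncomputable def diagAlgebra : Algebra (B ⊗[k] B) (Q ⊗[k] B) :=
  (diagMap k B Q).toRingHom.toAlgebra

attribute [local instance] diagAlgebra

theorem diagAlgebra_smul_def (e : B ⊗[k] B) (m : Q ⊗[k] B) :
    e • m = diagMap k B Q e * m := rfl

theorem diagAlgebra_algebraMap (e : B ⊗[k] B) :
    algebraMap (B ⊗[k] B) (Q ⊗[k] B) e = diagMap k B Q e := rfl

/-- The retraction `r : Q ⊗ B → (Q ⊗ B) ⊗_{B ⊗ B} D`, `q ⊗ b ↦ (q ⊗ 1) ⊗ ρ(1 ⊗ b)`. -/
noncomputable def kerRetract :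
    Q ⊗[k] B →+ (Q ⊗[k] B) ⊗[B ⊗[k] B] (KaehlerDifferential.ideal k B) :=
  TensorProduct.liftAddHom
    (AddMonoidHom.mk' (fun q : Q => AddMonoidHom.mk' (fun b : B =>
        (q ⊗ₜ[k] (1 : B)) ⊗ₜ[B ⊗[k] B] diagRetract k B ((1 : B) ⊗ₜ[k] b))
        (fun b b' => by rw [tmul_add, diagRetract_add, tmul_add]))
      (fun q q' => by
        ext b
        simp only [AddMonoidHom.mk'_apply, AddMonoidHom.add_apply, add_tmul]))
    (fun c q b => by
      simp only [AddMonoidHom.mk'_apply]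
      have h1 : ((1 : B) ⊗ₜ[k] (c • b) : B ⊗[k] B) =
          ((algebraMap k B c) ⊗ₜ[k] (1 : B)) * ((1 : B) ⊗ₜ[k] b) := by
        rw [Algebra.TensorProduct.tmul_mul_tmul, mul_one, one_mul, Algebra.algebraMap_eq_smul_one,
          TensorProduct.smul_tmul]
      rw [h1, diagRetract_left_mul, ← TensorProduct.smul_tmul, diagAlgebra_smul_def,
        diagMap_tmul, Algebra.TensorProduct.tmul_mul_tmul, mul_one,
        ← IsScalarTower.algebraMap_apply, ← Algebra.smul_def])

theorem kerRetract_tmul (q : Q) (b : B) :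
    kerRetract k B Q (q ⊗ₜ b) =
      (q ⊗ₜ[k] (1 : B)) ⊗ₜ[B ⊗[k] B] diagRetract k B ((1 : B) ⊗ₜ[k] b) := rfl

theorem kerRetract_mul_diagMap (q : Q) (b : B) (x : B ⊗[k] B) :
    kerRetract k B Q ((q ⊗ₜ b) * diagMap k B Q x) =
      (q ⊗ₜ[k] (1 : B)) ⊗ₜ[B ⊗[k] B] diagRetract k B (((1 : B) ⊗ₜ[k] b) * x) := by
  induction x with
  | zero => simp [diagRetract_zero]
  | tmul b₁ b₂ =>
    have h1 : (((1 : B) ⊗ₜ[k] b) * (b₁ ⊗ₜ[k] b₂) : B ⊗[k] B) =
        (b₁ ⊗ₜ[k] (1 : B)) * ((1 : B) ⊗ₜ[k] (b * b₂)) := by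
      simp only [Algebra.TensorProduct.tmul_mul_tmul, one_mul, mul_one]
    rw [diagMap_tmul, Algebra.TensorProduct.tmul_mul_tmul, kerRetract_tmul, h1,
      diagRetract_left_mul, ← TensorProduct.smul_tmul, diagAlgebra_smul_def, diagMap_tmul,
      Algebra.TensorProduct.tmul_mul_tmul, mul_one, mul_comm]
  | add x y hx hy =>
    rw [map_add, mul_add, map_add, hx, hy, mul_add, diagRetract_add, tmul_add]

theorem kerRetract_mul_mem (m : Q ⊗[k] B) (d : KaehlerDifferential.ideal k B) :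
    kerRetract k B Q (m * diagMap k B Q (d : B ⊗[k] B)) = m ⊗ₜ[B ⊗[k] B] d := by
  induction m with
  | zero => simp
  | tmul q b =>
    have h2 : diagRetract k B (((1 : B) ⊗ₜ[k] b) * (d : B ⊗[k] B)) =
        ((1 : B) ⊗ₜ[k] b) • d := by
      have := diagRetract_of_mem k B (((1 : B) ⊗ₜ[k] b) • d)
      rwa [Submodule.coe_smul, smul_eq_mul] at this
    rw [kerRetract_mul_diagMap, h2, ← TensorProduct.smul_tmul, diagAlgebra_smul_def,
      diagMap_tmul, Algebra.TensorProduct.tmul_mul_tmul, map_one, one_mul, mul_one]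
  | add x y hx hy =>
    rw [add_mul, map_add, hx, hy, add_tmul]

/-- The multiplication map `(Q ⊗ B) ⊗_{B ⊗ B} D → Q ⊗ B`. -/
noncomputable def kerMul :
    (Q ⊗[k] B) ⊗[B ⊗[k] B] (KaehlerDifferential.ideal k B) →ₗ[Q ⊗[k] B] Q ⊗[k] B :=
  LinearMap.liftBaseChange (Q ⊗[k] B)
    ((Algebra.linearMap (B ⊗[k] B) (Q ⊗[k] B)) ∘ₗ (KaehlerDifferential.ideal k B).subtype)

theorem kerMul_tmul (m : Q ⊗[k] B) (d : KaehlerDifferential.ideal k B) :
    kerMul k B Q (m ⊗ₜ d) = m * diagMap k B Q (d : B ⊗[k] B) := by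
  simp [kerMul, diagAlgebra_algebraMap]

theorem kerRetract_kerMul (t : (Q ⊗[k] B) ⊗[B ⊗[k] B] (KaehlerDifferential.ideal k B)) :
    kerRetract k B Q (kerMul k B Q t) = t := by
  induction t with
  | zero => simp
  | tmul m d => rw [kerMul_tmul, kerRetract_mul_mem]
  | add x y hx hy => rw [map_add, map_add, hx, hy]

theorem kerMul_injective : Function.Injective (kerMul k B Q) :=
  Function.LeftInverse.injective (kerRetract_kerMul k B Q)

theorem range_kerMul :
    LinearMap.range (kerMul k B Q) = RingHom.ker (graphMap k B Q) := by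
  apply le_antisymm
  · rintro _ ⟨t, rfl⟩
    induction t with
    | zero => simp
    | tmul m d =>
      have h : Algebra.TensorProduct.lmul' k (d : B ⊗[k] B) = 0 := RingHom.mem_ker.mp d.2
      rw [kerMul_tmul, RingHom.mem_ker, map_mul, graphMap_diagMap, h, map_zero, mul_zero]
    | add x y hx hy =>
      rw [map_add]
      exact Ideal.add_mem _ hx hy
  · intro m hm
    have key : ∀ m : Q ⊗[k] B,
        m - (graphMap k B Q m) ⊗ₜ[k] (1 : B) ∈ LinearMap.range (kerMul k B Q) := by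
      intro m
      induction m with
      | zero => simp
      | tmul q b =>
        refine ⟨(q ⊗ₜ[k] (1 : B)) ⊗ₜ[B ⊗[k] B]
          ⟨(1 : B) ⊗ₜ[k] b - b ⊗ₜ[k] (1 : B),
            KaehlerDifferential.one_smul_sub_smul_one_mem_ideal k b⟩, ?_⟩
        rw [kerMul_tmul, map_sub, diagMap_tmul, diagMap_tmul, mul_sub,
          Algebra.TensorProduct.tmul_mul_tmul, Algebra.TensorProduct.tmul_mul_tmul, map_one,
          mul_one, one_mul, mul_one, graphMap_tmul]
      | add x y hx hy =>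
        have : x + y - (graphMap k B Q (x + y)) ⊗ₜ[k] (1 : B) =
            (x - (graphMap k B Q x) ⊗ₜ[k] (1 : B)) + (y - (graphMap k B Q y) ⊗ₜ[k] (1 : B)) := by
          rw [map_add, add_tmul]; abel
        rw [this]
        exact Submodule.add_mem _ hx hy
    have := key m
    rwa [RingHom.mem_ker.mp hm, zero_tmul, sub_zero] at this

/-- **Kernel lemma.** If the diagonal ideal of `B` over `k` is an invertible `B ⊗ B`-module, then
for every `B`-algebra `Q` the kernel of `Q ⊗[k] B → Q` is an invertible `Q ⊗[k] B`-module. -/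
theorem ker_graphMap_invertible
    [Module.Invertible (B ⊗[k] B) (KaehlerDifferential.ideal k B)] :
    Module.Invertible (Q ⊗[k] B) (RingHom.ker (graphMap k B Q)) := by
  have e : (Q ⊗[k] B) ⊗[B ⊗[k] B] (KaehlerDifferential.ideal k B) ≃ₗ[Q ⊗[k] B]
      RingHom.ker (graphMap k B Q) :=
    (LinearEquiv.ofInjective (kerMul k B Q) (kerMul_injective k B Q)).trans
      (LinearEquiv.ofEq _ _ (range_kerMul k B Q))
  exact Module.Invertible.congr e

theorem graphMap_surjective : Function.Surjective (graphMap k B Q) := fun q =>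
  ⟨q ⊗ₜ 1, by simp⟩

end Kernel

end Fermat.Agent.S25.H431
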