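/-
S25 / block HILB (helper431): rank of an invertible module over a finite projective algebra.
-/
import Mathlib

set_option autoImplicit false

open TensorProduct

namespace Fermat.Agent.S25.H431

section RankInv

/-- Projectivity is transitive along a finite projective extension (finite case). -/
theorem projective_trans (R M P : Type*) [CommRing R] [CommRing M] [Algebra R M]
    [Module.Projective R M] [AddCommGroup P] [Module M P] [Module R P]
    [IsScalarTower R M P] [Module.Finite M P] [Module.Projective M P] :
    Module.Projective R P := by
  obtain ⟨n, f, g, -, -, hfg⟩ := Module.Finite.exists_comp_eq_id_of_projective M P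
  have : Module.Projective R (Fin n → M) :=
    Module.Projective.of_equiv
      (DFinsupp.linearEquivFunOnFintype (R := R) (M := fun _ : Fin n => M))
  refine Module.Projective.of_split (g.restrictScalars R) (f.restrictScalars R) ?_
  ext x
  exact LinearMap.congr_fun hfg x

attribute [local instance] Algebra.TensorProduct.rightAlgebra in
/-- An invertible module over a finite projective `R`-algebra `M` has the same `R`-rank as `M`. -/
theorem rankAtStalk_eq_of_invertible (R M P : Type*) [CommRing R] [CommRing M] [Algebra R M]
    [Module.Finite R M] [Module.Projective R M] [AddCommGroup P] [Module M P] [Module R P]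
    [IsScalarTower R M P] [Module.Invertible M P] (p : PrimeSpectrum R) :
    Module.rankAtStalk (R := R) P p = Module.rankAtStalk (R := R) M p := by
  classical
  have : Module.Finite R P := Module.Finite.trans M P
  have : Module.Flat R P := Module.Flat.trans R M P
  rw [Module.rankAtStalk_eq, Module.rankAtStalk_eq]
  let κ := p.asIdeal.ResidueField
  change Module.finrank κ (κ ⊗[R] P) = Module.finrank κ (κ ⊗[R] M)
  have : IsArtinianRing (κ ⊗[R] M) := IsArtinianRing.of_finite κ _
  have : Module.Free (κ ⊗[R] M) ((κ ⊗[R] M) ⊗[M] P) := inferInstance
  obtain ⟨e⟩ := Module.Invertible.free_iff_linearEquiv.mp this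
  have e1 : (κ ⊗[R] M) ⊗[M] P ≃ₗ[κ] κ ⊗[R] P :=
    Algebra.IsPushout.cancelBaseChange R κ M (κ ⊗[R] M) P
  have e2 : (κ ⊗[R] M) ⊗[M] P ≃ₗ[κ] κ ⊗[R] M := e.restrictScalars κ
  rw [← e1.finrank_eq, e2.finrank_eq]

end RankInv

end Fermat.Agent.S25.H431
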