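/-
S25 / block HILB (helper431): Schanuel's lemma.
-/
import Mathlib

set_option autoImplicit false

namespace Fermat.Agent.S25.H431

section Schanuel

variable {R : Type*} [Ring R] {N₁ N₂ Q : Type*} [AddCommGroup N₁] [AddCommGroup N₂]
  [AddCommGroup Q] [Module R N₁] [Module R N₂] [Module R Q]

/-- The fibre product of two linear maps, as a submodule of the product. -/
def fibProd (f : N₁ →ₗ[R] Q) (g : N₂ →ₗ[R] Q) : Submodule R (N₁ × N₂) :=
  LinearMap.eqLocus (f ∘ₗ LinearMap.fst R N₁ N₂) (g ∘ₗ LinearMap.snd R N₁ N₂)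

theorem mem_fibProd {f : N₁ →ₗ[R] Q} {g : N₂ →ₗ[R] Q} {x : N₁ × N₂} :
    x ∈ fibProd f g ↔ f x.1 = g x.2 := Iff.rfl

/-- Half of Schanuel: the fibre product is `ker g × N₁` when `N₁` is projective and `g` is
surjective. -/
theorem fibProdEquivLeft (f : N₁ →ₗ[R] Q) (g : N₂ →ₗ[R] Q)
    (hg : Function.Surjective g) [Module.Projective R N₁] :
    Nonempty ((LinearMap.ker g × N₁) ≃ₗ[R] fibProd f g) := by
  classical
  -- the projection to `N₁`
  let p : fibProd f g →ₗ[R] N₁ := LinearMap.fst R N₁ N₂ ∘ₗ (fibProd f g).subtype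
  have hp : Function.Surjective p := by
    intro x
    obtain ⟨y, hy⟩ := hg (f x)
    exact ⟨⟨(x, y), hy.symm⟩, rfl⟩
  obtain ⟨s, hs⟩ := Module.projective_lifting_property p (LinearMap.id : N₁ →ₗ[R] N₁) hp
  let j : LinearMap.ker g →ₗ[R] fibProd f g :=
    LinearMap.codRestrict (fibProd f g) (LinearMap.inr R N₁ N₂ ∘ₗ (LinearMap.ker g).subtype)
      (fun y => by
        change f 0 = g y.1
        rw [map_zero, (LinearMap.mem_ker.mp y.2)])
  have hj : Function.Injective j := by
    intro y y' h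
    have := congrArg (fun z : fibProd f g => (z : N₁ × N₂).2) h
    exact Subtype.ext this
  have hex : LinearMap.range j = LinearMap.ker p := by
    ext ⟨⟨x, y⟩, hxy⟩
    constructor
    · rintro ⟨z, hz⟩
      have := congrArg (fun z : fibProd f g => (z : N₁ × N₂).1) hz
      simp only [LinearMap.mem_ker]
      exact this.symm
    · intro h
      have hx : x = 0 := h
      subst hx
      have hy : g y = 0 := by
        have := hxy
        change f 0 = g y at this
        rw [map_zero] at this
        exact this.symm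
      exact ⟨⟨y, hy⟩, rfl⟩
  exact ⟨lequivProdOfRightSplitExact hj hex hs⟩

/-- **Schanuel's lemma.** -/
theorem schanuel (f : N₁ →ₗ[R] Q) (g : N₂ →ₗ[R] Q)
    (hf : Function.Surjective f) (hg : Function.Surjective g)
    [Module.Projective R N₁] [Module.Projective R N₂] :
    Nonempty ((LinearMap.ker f × N₂) ≃ₗ[R] (LinearMap.ker g × N₁)) := by
  obtain ⟨e₁⟩ := fibProdEquivLeft f g hg
  obtain ⟨e₂⟩ := fibProdEquivLeft g f hf
  -- swap the factors of the fibre product
  let sw : fibProd g f ≃ₗ[R] fibProd f g :=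
    { toFun := fun z => ⟨(z.1.2, z.1.1), (z.2 : g z.1.1 = f z.1.2).symm⟩
      invFun := fun z => ⟨(z.1.2, z.1.1), (z.2 : f z.1.1 = g z.1.2).symm⟩
      map_add' := fun _ _ => rfl
      map_smul' := fun _ _ => rfl
      left_inv := fun _ => rfl
      right_inv := fun _ => rfl }
  exact ⟨(e₂.trans sw).trans e₁.symm⟩

end Schanuel

end Fermat.Agent.S25.H431
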