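/-
S25 / block HILB (helper431), leaf H3 ("Hilb = Div").

An ideal `I` of `A ⊗[k] B` whose quotient is finite projective over `A` is an invertible
`A ⊗[k] B`-module, as soon as the diagonal ideal of `B` over `k` is invertible.
-/
import Mathlib
import Fermat.Agent.S25.H431.Schanuel
import Fermat.Agent.S25.H431.Kernel
import Fermat.Agent.S25.H431.RankInv
import Fermat.Agent.S25.H551.Invertible

set_option autoImplicit false

open TensorProduct

universe u

namespace Fermat.Agent.S25.H431

section Assembly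

/-- **Abstract assembly.** Let `I` be an ideal of `R`, and `M` a finite projective `R`-algebra
with a surjection `μ : M → R ⧸ I` of `R`-algebras whose kernel is an invertible `M`-module.
Then `I` is finite projective of rank one over `R`. -/
theorem finite_projective_rank_one_of_resolution {R : Type*} [CommRing R] (I : Ideal R)
    (M : Type*) [CommRing M] [Algebra R M] [Module.Finite R M] [Module.Projective R M]
    (μ : M →+* R ⧸ I) (hμ : Function.Surjective μ)
    (hμR : ∀ r : R, μ (algebraMap R M r) = Ideal.Quotient.mk I r)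
    [Module.Invertible M (RingHom.ker μ)] :
    Module.Finite R I ∧ Module.Projective R I ∧
      ∀ p : PrimeSpectrum R, Module.rankAtStalk (R := R) I p = 1 := by
  classical
  -- the two surjections onto `R ⧸ I`
  let f : R →ₗ[R] R ⧸ I := Submodule.mkQ I
  let g : M →ₗ[R] R ⧸ I :=
    { toFun := μ
      map_add' := map_add μ
      map_smul' := fun r m => by
        rw [Algebra.smul_def, map_mul, hμR, RingHom.id_apply, Algebra.smul_def]
        rfl }
  have hf : Function.Surjective f := Submodule.mkQ_surjective I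
  have hg : Function.Surjective g := hμ
  obtain ⟨e⟩ := schanuel f g hf hg
  -- the kernel of `g`, as an `R`-module, is the ideal `ker μ`
  let J : Ideal M := RingHom.ker μ
  have hJfin : Module.Finite R J := Module.Finite.trans M J
  have hJproj : Module.Projective R J := projective_trans R M J
  let eJ : LinearMap.ker g ≃ₗ[R] J :=
    { toFun := fun x => ⟨x.1, x.2⟩
      invFun := fun x => ⟨x.1, x.2⟩
      map_add' := fun _ _ => rfl
      map_smul' := fun _ _ => rfl
      left_inv := fun _ => rfl
      right_inv := fun _ => rfl }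
  have hKfin : Module.Finite R (LinearMap.ker g) := Module.Finite.equiv eJ.symm
  have hKproj : Module.Projective R (LinearMap.ker g) := Module.Projective.of_equiv eJ.symm
  -- the kernel of `f` is `I`
  have hker : LinearMap.ker f = I := Submodule.ker_mkQ I
  let eI : LinearMap.ker f ≃ₗ[R] I := LinearEquiv.ofEq _ _ hker
  -- `I × M ≃ ker g × R`
  let e' : (I × M) ≃ₗ[R] (LinearMap.ker g × R) :=
    (LinearEquiv.prodCongr eI.symm (LinearEquiv.refl R M)).trans e
  have hIMfin : Module.Finite R (I × M) := Module.Finite.equiv e'.symm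
  have hIMproj : Module.Projective R (I × M) := Module.Projective.of_equiv e'.symm
  have hIfin : Module.Finite R I :=
    Module.Finite.of_surjective (LinearMap.fst R I M) LinearMap.fst_surjective
  have hIproj : Module.Projective R I :=
    Module.Projective.of_split (LinearMap.inl R I M) (LinearMap.fst R I M) (by ext; rfl)
  refine ⟨hIfin, hIproj, fun p => ?_⟩
  have hnt : Nontrivial R := ⟨⟨0, 1, fun h => p.2.ne_top ((Ideal.eq_top_iff_one _).mpr
    (by rw [← h]; exact Ideal.zero_mem _))⟩⟩
  have h1 : Module.rankAtStalk (R := R) (I × M) p =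
      Module.rankAtStalk (R := R) (LinearMap.ker g × R) p := by
    rw [Module.rankAtStalk_eq_of_equiv e']
  rw [Module.rankAtStalk_prod, Module.rankAtStalk_prod, Pi.add_apply, Pi.add_apply,
    Module.rankAtStalk_eq_of_equiv eJ, rankAtStalk_eq_of_invertible R M J p,
    Module.rankAtStalk_self, Pi.one_apply] at h1
  omega

/-- **Abstract assembly**, invertible form (single universe). -/
theorem invertible_of_resolution {R : Type u} [CommRing R] (I : Ideal R)
    (M : Type*) [CommRing M] [Algebra R M] [Module.Finite R M] [Module.Projective R M]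
    (μ : M →+* R ⧸ I) (hμ : Function.Surjective μ)
    (hμR : ∀ r : R, μ (algebraMap R M r) = Ideal.Quotient.mk I r)
    [Module.Invertible M (RingHom.ker μ)] :
    Module.Invertible R I := by
  obtain ⟨h1, h2, h3⟩ := finite_projective_rank_one_of_resolution I M μ hμ hμR
  exact Fermat.Agent.S25.H551.invertible_of_rankAtStalk_eq_one I h3

end Assembly

section Hilb

/-- **H3 (Hilb = Div), abstract quotient form.** -/
theorem hilb_invertible_aux (k A B Q : Type u) [CommRing k] [CommRing A] [CommRing B]
    [CommRing Q] [Algebra k A] [Algebra k B] [Algebra k Q] [Algebra A Q] [Algebra B Q]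
    [IsScalarTower k A Q] [IsScalarTower k B Q]
    [Module.Invertible (B ⊗[k] B) (KaehlerDifferential.ideal k B)]
    [Module.Finite A Q] [Module.Projective A Q]
    (π : A ⊗[k] B →+* Q) (hπ : Function.Surjective π)
    (hπ' : ∀ (a : A) (b : B), π (a ⊗ₜ b) = algebraMap A Q a * algebraMap B Q b) :
    Module.Invertible (A ⊗[k] B) (RingHom.ker π) := by
  classical
  -- the `A ⊗ B`-algebra structure of `Q ⊗ B`
  let ψ : A ⊗[k] B →ₐ[A] Q ⊗[k] B :=
    Algebra.TensorProduct.map (Algebra.ofId A Q) (AlgHom.id k B)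
  let algRM : Algebra (A ⊗[k] B) (Q ⊗[k] B) :=
    @RingHom.toAlgebra (A ⊗[k] B) (Q ⊗[k] B) _ _ ψ.toRingHom
  have hψ : ∀ r : A ⊗[k] B, algebraMap (A ⊗[k] B) (Q ⊗[k] B) r = ψ r :=
    fun r => rfl
  have tower2 : IsScalarTower A (A ⊗[k] B) (Q ⊗[k] B) :=
    IsScalarTower.of_algebraMap_eq (R := A) (S := A ⊗[k] B) (A := Q ⊗[k] B) fun a => by
      rw [hψ, AlgHom.commutes]
  have H : (algebraMap (A ⊗[k] B) (Q ⊗[k] B)).comp
      (Algebra.TensorProduct.includeRight : B →ₐ[k] A ⊗[k] B).toRingHom =
      (Algebra.TensorProduct.includeRight : B →ₐ[k] Q ⊗[k] B).toRingHom := by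
    ext b
    simp [hψ, ψ]
  have hpo : Algebra.IsPushout A Q (A ⊗[k] B) (Q ⊗[k] B) :=
    Algebra.IsPushout.tensorProduct_tensorProduct k B A Q H
  have hpo' : Algebra.IsPushout A (A ⊗[k] B) Q (Q ⊗[k] B) := hpo.symm
  let eq : (A ⊗[k] B) ⊗[A] Q ≃ₐ[A ⊗[k] B] Q ⊗[k] B :=
    Algebra.IsPushout.equiv A (A ⊗[k] B) Q (Q ⊗[k] B)
  have hfin : Module.Finite (A ⊗[k] B) (Q ⊗[k] B) := Module.Finite.equiv eq.toLinearEquiv
  have hproj : Module.Projective (A ⊗[k] B) (Q ⊗[k] B) :=
    Module.Projective.of_equiv eq.toLinearEquiv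
  -- the surjection onto the quotient
  let μ₀ : Q ⊗[k] B →+* Q := (graphMap k B Q).toRingHom
  have hμ₀ : Function.Surjective μ₀ := graphMap_surjective k B Q
  have hμ₀R : ∀ r : A ⊗[k] B, μ₀ (ψ r) = π r := by
    intro r
    induction r with
    | zero => simp
    | tmul a b =>
      change graphMap k B Q (ψ (a ⊗ₜ b)) = _
      simp only [ψ, Algebra.TensorProduct.map_tmul, graphMap_tmul, Algebra.ofId_apply,
        AlgHom.id_apply, hπ']
    | add x y hx hy => rw [map_add, map_add, hx, hy, map_add]
  let ε : Q ≃+* (A ⊗[k] B) ⧸ RingHom.ker π := (RingHom.quotientKerEquivOfSurjective hπ).symm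
  have hε : ∀ r : A ⊗[k] B, ε (π r) = Ideal.Quotient.mk (RingHom.ker π) r := by
    intro r
    rw [RingEquiv.symm_apply_eq]
    rfl
  let μ : Q ⊗[k] B →+* (A ⊗[k] B) ⧸ RingHom.ker π := ε.toRingHom.comp μ₀
  have hμ : Function.Surjective μ := ε.surjective.comp hμ₀
  have hμR : ∀ r : A ⊗[k] B,
      μ (algebraMap (A ⊗[k] B) (Q ⊗[k] B) r) = Ideal.Quotient.mk (RingHom.ker π) r := by
    intro r
    rw [hψ]
    change ε (μ₀ (ψ r)) = _
    rw [hμ₀R, hε]
  have hker : RingHom.ker μ = RingHom.ker (graphMap k B Q) := by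
    ext x
    simp only [RingHom.mem_ker]
    change ε (μ₀ x) = 0 ↔ _
    rw [map_eq_zero_iff ε ε.injective]
    rfl
  have hinv : Module.Invertible (Q ⊗[k] B) (RingHom.ker μ) := by
    rw [hker]
    exact ker_graphMap_invertible k B Q
  exact invertible_of_resolution (RingHom.ker π) (Q ⊗[k] B) μ hμ hμR

/-- **H3 (Hilb = Div), general form.** `k` any commutative ring, `A`, `B` any `k`-algebras such
that the diagonal ideal of `B` is an invertible `B ⊗[k] B`-module. Every ideal of `A ⊗[k] B`
whose quotient is finite projective over `A` is an invertible `A ⊗[k] B`-module. -/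
theorem hilb_invertible (k A B : Type u) [CommRing k] [CommRing A] [CommRing B]
    [Algebra k A] [Algebra k B]
    [Module.Invertible (B ⊗[k] B) (KaehlerDifferential.ideal k B)]
    (I : Ideal (A ⊗[k] B)) [Module.Finite A ((A ⊗[k] B) ⧸ I)]
    [Module.Projective A ((A ⊗[k] B) ⧸ I)] :
    Module.Invertible (A ⊗[k] B) I := by
  classical
  -- the `B`-algebra structure of the quotient
  let algBQ : Algebra B ((A ⊗[k] B) ⧸ I) :=
    ((Ideal.Quotient.mk I).comp
      (Algebra.TensorProduct.includeRight : B →ₐ[k] A ⊗[k] B).toRingHom).toAlgebra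
  have hBQ : ∀ b : B, algebraMap B ((A ⊗[k] B) ⧸ I) b = Ideal.Quotient.mk I (1 ⊗ₜ b) :=
    fun b => rfl
  have hAQ : ∀ a : A, algebraMap A ((A ⊗[k] B) ⧸ I) a = Ideal.Quotient.mk I (a ⊗ₜ 1) :=
    fun a => rfl
  have tower : IsScalarTower k B ((A ⊗[k] B) ⧸ I) := IsScalarTower.of_algebraMap_eq fun c => by
    rw [hBQ, IsScalarTower.algebraMap_apply k A ((A ⊗[k] B) ⧸ I), hAQ,
      Algebra.algebraMap_eq_smul_one, Algebra.algebraMap_eq_smul_one, TensorProduct.smul_tmul]
  have h := hilb_invertible_aux k A B ((A ⊗[k] B) ⧸ I) (Ideal.Quotient.mk I)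
    Ideal.Quotient.mk_surjective (fun a b => by
      rw [hAQ, hBQ, ← map_mul, Algebra.TensorProduct.tmul_mul_tmul, mul_one, one_mul])
  have hI : RingHom.ker (Ideal.Quotient.mk I) = I := Ideal.mk_ker
  exact Module.Invertible.congr (LinearEquiv.ofEq _ _ hI)

/-- A generator of an invertible principal ideal is a nonzerodivisor. -/
theorem mem_nonZeroDivisors_of_span_invertible {R : Type*} [CommRing R] (f : R)
    [Module.Invertible R (Ideal.span {f})] : f ∈ nonZeroDivisors R := by
  let g : R →ₗ[R] (Ideal.span {f} : Ideal R) :=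
    LinearMap.toSpanSingleton R _ ⟨f, Ideal.mem_span_singleton_self f⟩
  have hg : Function.Surjective g := by
    rintro ⟨x, hx⟩
    obtain ⟨r, rfl⟩ := Ideal.mem_span_singleton'.mp hx
    exact ⟨r, Subtype.ext rfl⟩
  have hb := Module.Invertible.bijective_of_surjective hg
  rw [mem_nonZeroDivisors_iff_right]
  intro r hr
  apply hb.1
  rw [map_zero]
  exact Subtype.ext hr

/-- **H3**, exact statement of the HILB skeleton (`HilbSkel.hilb_ideal_invertible`); the
hypotheses `hdom` and `hinf` are not needed. -/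
theorem hilb_ideal_invertible (k : Type u) [Field k] (B : Type u) [CommRing B] [Algebra k B]
    [Module.Invertible (B ⊗[k] B) (KaehlerDifferential.ideal k B)]
    (_hdom : ∀ (K : Type u) [Field K] [Algebra k K], IsDomain (K ⊗[k] B))
    (_hinf : ¬ Module.Finite k B)
    (A : Type u) [CommRing A] [Algebra k A] (I : Ideal (A ⊗[k] B))
    [Module.Finite A ((A ⊗[k] B) ⧸ I)] [Module.Projective A ((A ⊗[k] B) ⧸ I)] :
    Module.Invertible (A ⊗[k] B) I :=
  hilb_invertible k A B I

/-- **H3'**, exact statement of the HILB skeleton (`HilbSkel.hilb_ideal_generator_regular`). -/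
theorem hilb_ideal_generator_regular (k : Type u) [Field k] (B : Type u) [CommRing B]
    [Algebra k B] [Module.Invertible (B ⊗[k] B) (KaehlerDifferential.ideal k B)]
    (_hdom : ∀ (K : Type u) [Field K] [Algebra k K], IsDomain (K ⊗[k] B))
    (_hinf : ¬ Module.Finite k B)
    (A : Type u) [CommRing A] [Algebra k A] (f : A ⊗[k] B)
    [Module.Finite A ((A ⊗[k] B) ⧸ Ideal.span {f})]
    [Module.Projective A ((A ⊗[k] B) ⧸ Ideal.span {f})] :
    f ∈ nonZeroDivisors (A ⊗[k] B) := by
  have : Module.Invertible (A ⊗[k] B) (Ideal.span {f} : Ideal (A ⊗[k] B)) :=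
    hilb_invertible k A B (Ideal.span {f})
  exact mem_nonZeroDivisors_of_span_invertible f

/-- General form of H3': no field hypothesis. -/
theorem hilb_generator_regular (k A B : Type u) [CommRing k] [CommRing A] [CommRing B]
    [Algebra k A] [Algebra k B]
    [Module.Invertible (B ⊗[k] B) (KaehlerDifferential.ideal k B)]
    (f : A ⊗[k] B) [Module.Finite A ((A ⊗[k] B) ⧸ Ideal.span {f})]
    [Module.Projective A ((A ⊗[k] B) ⧸ Ideal.span {f})] :
    f ∈ nonZeroDivisors (A ⊗[k] B) := by
  have : Module.Invertible (A ⊗[k] B) (Ideal.span {f} : Ideal (A ⊗[k] B)) :=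
    hilb_invertible k A B (Ideal.span {f})
  exact mem_nonZeroDivisors_of_span_invertible f

end Hilb

end Fermat.Agent.S25.H431
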