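/-
S25 / block ALGCHARTS, leaf PT-UNIQ (helper431): the Hilbert coordinates of a point of a chart
are unique.

Route: two generators of `H⁰(G(nE₀ - Σq))` span the same submodule of `N₀`, so
`(I · I_q) N₀ = (I' · I_q) N₀`; cancel the invertible module `N₀` and the invertible ideals
`ker (ptHom (q i))`, then use the representability of the Hilbert chart (helper491).
-/
import Fermat.Agent.S25.H11.ACLeaves
import Fermat.Agent.S25.H431.HilbDiv
import Fermat.Agent.S25.H431.Diagonal
import Fermat.Agent.S25.H567.TensorDomain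

set_option autoImplicit false
set_option linter.unusedSectionVars false

universe u

open scoped TensorProduct

namespace Fermat.Agent.S25.H431

open Fermat.Agent.S25 Fermat.Agent.S25.H11

/-! ## Cancellation of invertible modules and ideals -/

section Cancel

variable {R : Type*} [CommRing R] {N : Type*} [AddCommGroup N] [Module R N]

/-- A functional maps `J • ⊤` into `J`. -/
theorem dual_apply_mem_of_mem_smul_top (J : Ideal R) (φ : Module.Dual R N) {n : N}
    (hn : n ∈ J • (⊤ : Submodule R N)) : φ n ∈ J := by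
  refine Submodule.smul_induction_on (p := fun n => φ n ∈ J) hn (fun a ha m _ => ?_)
    (fun x y hx hy => ?_)
  · change φ (a • m) ∈ J
    rw [map_smul, smul_eq_mul]
    exact J.mul_mem_right _ ha
  · rw [map_add]
    exact J.add_mem hx hy

variable [Module.Invertible R N]

/-- An invertible module can be cancelled: `J N ≤ J' N ⇒ J ≤ J'`. -/
theorem ideal_le_of_smul_top_le {J J' : Ideal R}
    (h : J • (⊤ : Submodule R N) ≤ J' • ⊤) : J ≤ J' := by
  classical
  intro r hr
  obtain ⟨S, hS⟩ := ((Module.Invertible.linearEquiv R N).symm 1).exists_finset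
  have h1 : (1 : R) = ∑ i ∈ S, i.1 i.2 := by
    simpa [LinearEquiv.symm_apply_eq, Module.Invertible.linearEquiv] using hS
  have h2 : r = ∑ i ∈ S, i.1 (r • i.2) := by
    simp only [map_smul, smul_eq_mul, ← Finset.mul_sum, ← h1, mul_one]
  rw [h2]
  exact J'.sum_mem fun i _ =>
    dual_apply_mem_of_mem_smul_top J' i.1 (h (Submodule.smul_mem_smul hr trivial))

/-- An invertible module can be cancelled: `J N = J' N ⇒ J = J'`. -/
theorem ideal_eq_of_smul_top_eq {J J' : Ideal R}
    (h : J • (⊤ : Submodule R N) = J' • ⊤) : J = J' :=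
  le_antisymm (ideal_le_of_smul_top_le h.le) (ideal_le_of_smul_top_le h.ge)

omit [Module.Invertible R N] in
/-- An ideal which is an invertible module can be cancelled. -/
theorem ideal_mul_right_cancel (K : Ideal R) [Module.Invertible R K] {J J' : Ideal R}
    (h : J * K = J' * K) : J = J' := by
  apply ideal_eq_of_smul_top_eq (N := K)
  apply Submodule.map_injective_of_injective K.injective_subtype
  rw [Submodule.map_smul'', Submodule.map_smul'', Submodule.map_top, Submodule.range_subtype]
  exact h

omit [Module.Invertible R N] in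
/-- A finite product of ideals which are invertible modules can be cancelled. -/
theorem ideal_mul_prod_right_cancel {ι : Type*} (s : Finset ι) (K : ι → Ideal R)
    (hK : ∀ i ∈ s, Module.Invertible R (K i)) {J J' : Ideal R}
    (h : J * ∏ i ∈ s, K i = J' * ∏ i ∈ s, K i) : J = J' := by
  classical
  induction s using Finset.induction_on generalizing J J' with
  | empty => simpa using h
  | insert a s ha ih =>
    rw [Finset.prod_insert ha, ← mul_assoc, ← mul_assoc] at h
    have := hK a (Finset.mem_insert_self a s)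
    exact ideal_mul_right_cancel (K a)
      (ih (fun i hi => hK i (Finset.mem_insert_of_mem hi)) h)

end Cancel

/-! ## Point ideals are invertible -/

section Chart

variable {k : Type u} [Field k] [IsAlgClosed k]
  {B₀ B₁ B₀₁ : Type u} [CommRing B₀] [CommRing B₁] [CommRing B₀₁]
  [Algebra k B₀] [Algebra k B₁] [Algebra k B₀₁] [Algebra B₀ B₀₁] [Algebra B₁ B₀₁]
  [IsScalarTower k B₀ B₀₁] [IsScalarTower k B₁ B₀₁]
  {x : B₀} {y : B₁} {e : B₁ →ₐ[k] k}

/-- The diagonal ideal of the first chart ring of a curve chart is invertible. -/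
theorem diagonal_invertible_of_isCurveChart (hC : IsCurveChart k B₀ B₁ B₀₁ x y e) :
    Module.Invertible (B₀ ⊗[k] B₀) (KaehlerDifferential.ideal k B₀) := by
  have := hC.isDomain₀
  have := hC.omega₀
  have := hC.smooth₀
  have : IsDomain (B₀ ⊗[k] B₀) := H567.isDomain_tensorProduct k B₀ B₀
  have : Algebra.FinitePresentation k B₀ := Algebra.Smooth.finitePresentation
  exact diagonal_invertible k B₀

omit [IsAlgClosed k] in
theorem ptHom_surjective (p : B₀ →ₐ[k] k) (A : Type u) [CommRing A] [Algebra k A] :
    Function.Surjective (ptHom p A) := fun a =>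
  ⟨a ⊗ₜ 1, by rw [ptHom_tmul, map_one, map_one, mul_one]⟩

/-- The ideal of an `A`-point coming from a `k`-point of `Spec B₀` is an invertible module. -/
theorem ker_ptHom_invertible (hC : IsCurveChart k B₀ B₁ B₀₁ x y e) (p : B₀ →ₐ[k] k)
    (A : Type u) [CommRing A] [Algebra k A] :
    Module.Invertible (A ⊗[k] B₀) (RingHom.ker (ptHom p A)) := by
  have := diagonal_invertible_of_isCurveChart hC
  let ε : ((A ⊗[k] B₀) ⧸ RingHom.ker (ptHom p A)) ≃ₐ[A] A :=
    Ideal.quotientKerAlgEquivOfSurjective (ptHom_surjective p A)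
  have : Module.Finite A ((A ⊗[k] B₀) ⧸ RingHom.ker (ptHom p A)) :=
    Module.Finite.equiv ε.symm.toLinearEquiv
  have : Module.Projective A ((A ⊗[k] B₀) ⧸ RingHom.ker (ptHom p A)) :=
    Module.Projective.of_equiv ε.symm.toLinearEquiv
  exact hilb_invertible k A B₀ (RingHom.ker (ptHom p A))

variable {A : Type u} [CommRing A] [Algebra k A]

/-- **PT-UNIQ**: the Hilbert coordinates of a point are unique. -/
theorem pointCond_unique (hC : IsCurveChart k B₀ B₁ B₀₁ x y e) (i : ChartIndex k B₀)
    {G : CurveGD k B₀ B₁ B₀₁ A} {φ₀ φ₀' : H491.Rβ k i.β →ₐ[k] A}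
    (h : PointCond x y i G φ₀) (h' : PointCond x y i G φ₀') : φ₀ = φ₀' := by
  classical
  obtain ⟨s, hs, hspan⟩ := h.sect
  obtain ⟨s', hs', hspan'⟩ := h'.sect
  -- the two generators span the same submodule of `N₀`
  have hle : ∀ {t t' : G.N₀ × G.N₁}, IsGen x y i.n i.q G t → IsGen x y i.n i.q G t' →
      Submodule.span (A ⊗[k] B₀) {t'.1} ≤ Submodule.span (A ⊗[k] B₀) {t.1} := by
    intro t t' ht ht'
    obtain ⟨a, ha⟩ := ht.span t' ht'.mem
    rw [Submodule.span_singleton_le_iff_mem, ha, Prod.smul_fst,
      ← algebraMap_smul (A ⊗[k] B₀) a t.1]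
    exact Submodule.smul_mem _ _ (Submodule.mem_span_singleton_self _)
  have hss : Submodule.span (A ⊗[k] B₀) {s.1} = Submodule.span (A ⊗[k] B₀) {s'.1} :=
    le_antisymm (hle hs' hs) (hle hs hs')
  -- cancel `N₀`
  have := G.invertible₀
  have h1 : (H491.univIdeal (k := k) i.β).map (H491.bc B₀ φ₀) * ptIdeal i.q A =
      (H491.univIdeal (k := k) i.β).map (H491.bc B₀ φ₀') * ptIdeal i.q A :=
    ideal_eq_of_smul_top_eq (N := G.N₀) (by rw [← hspan, ← hspan', hss])
  -- cancel the point ideals
  have h2 : (H491.univIdeal (k := k) i.β).map (H491.bc B₀ φ₀) =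
      (H491.univIdeal (k := k) i.β).map (H491.bc B₀ φ₀') :=
    ideal_mul_prod_right_cancel Finset.univ (fun j => RingHom.ker (ptHom (i.q j) A))
      (fun j _ => ker_ptHom_invertible hC (i.q j) A) h1
  -- representability of the Hilbert chart
  have hI : H491.IsChart i.β ((H491.univIdeal (k := k) i.β).map (H491.bc B₀ φ₀)) :=
    (H491.isChart_univIdeal i.β).map φ₀
  exact (H491.existsUnique_algHom_of_isChart hI).unique rfl h2.symm

/-- **PT-UNIQ** as the frozen leaf `H11.Leaf.PointUnique`. -/
theorem leaf_pointUnique : H11.Leaf.PointUnique k B₀ B₁ B₀₁ :=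
  fun _ _ _ hC i _ _ _ _ _ _ h h' => pointCond_unique hC i h h'

end Chart

end Fermat.Agent.S25.H431
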