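/-
S25 / block ALGCHARTS, shared sub-lemma SH2 (helper431): the ideal `ptIdeal q A` of the divisor
`Σ q i` on `Spec (A ⊗ B₀)`.

* `quot_mul_finite_projective`, `quot_prod_finite_projective` (abstract): quotients by products
  of invertible ideals are finite projective and the ranks add;
* `ptIdeal_quot` : `(A ⊗ B₀) ⧸ ptIdeal q A` is finite projective of rank `m` over `A`;
* `ptIdeal_invertible` : `ptIdeal q A` is an invertible module;
* `ptIdeal_map`, `ptIdeal_map_bc` : `ptIdeal` commutes with base change;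
* `vanq_quot` : `N₀ ⧸ vanq q G` is finite projective of rank `m` over `A`.
-/
import Fermat.Agent.S25.H11.ACLeaves
import Fermat.Agent.S25.H431.RankInv
import Fermat.Agent.S25.H431.ACPointUnique

set_option autoImplicit false
set_option linter.unusedSectionVars false

universe u

open scoped TensorProduct

namespace Fermat.Agent.S25.H431

open Fermat.Agent.S25 Fermat.Agent.S25.H11

noncomputable section

section Abstract

variable {A : Type*} {R : Type*} [CommRing A] [CommRing R] [Algebra A R]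

/-- The `R`-linear map `K → R ⧸ (K * P)`. -/
def idealToQuot (K P : Ideal R) : K →ₗ[R] R ⧸ (K * P) :=
  (Ideal.Quotient.mkₐ R (K * P)).toLinearMap ∘ₗ K.subtype

theorem idealToQuot_apply (K P : Ideal R) (x : K) :
    idealToQuot K P x = Ideal.Quotient.mk (K * P) (x : R) := rfl

theorem ker_idealToQuot (K P : Ideal R) :
    LinearMap.ker (idealToQuot K P) = (P • ⊤ : Submodule R K) := by
  ext x
  rw [LinearMap.mem_ker, idealToQuot_apply, Ideal.Quotient.eq_zero_iff_mem,
    Submodule.mem_smul_top_iff, mul_comm]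
  rfl

/-- The map `(R ⧸ P) ⊗[R] K → R ⧸ (K * P)`, `\bar r ⊗ x ↦ r x`. -/
def quotMulMap (K P : Ideal R) : ((R ⧸ P) ⊗[R] K) →ₗ[R] R ⧸ (K * P) :=
  (Submodule.liftQ (P • ⊤ : Submodule R K) (idealToQuot K P) (ker_idealToQuot K P).ge) ∘ₗ
    (TensorProduct.quotTensorEquivQuotSMul K P).toLinearMap

theorem quotMulMap_injective (K P : Ideal R) : Function.Injective (quotMulMap K P) := by
  rw [quotMulMap, LinearMap.coe_comp]
  refine Function.Injective.comp ?_ (LinearEquiv.injective _)
  rw [← LinearMap.ker_eq_bot, Submodule.ker_liftQ_eq_bot']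
  exact (ker_idealToQuot K P).symm

theorem range_quotMulMap (K P : Ideal R) :
    LinearMap.range (quotMulMap K P) = LinearMap.range (idealToQuot K P) := by
  rw [quotMulMap, LinearMap.range_comp, LinearEquiv.range, Submodule.map_top,
    Submodule.range_liftQ]

theorem exact_quotMulMap (K P : Ideal R) :
    Function.Exact (quotMulMap K P)
      (Ideal.Quotient.factor (Ideal.mul_le_left : K * P ≤ K)) := by
  intro y
  have hr : y ∈ Set.range (quotMulMap K P) ↔ y ∈ LinearMap.range (idealToQuot K P) := by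
    rw [← range_quotMulMap]; rfl
  rw [hr]
  obtain ⟨r, rfl⟩ := Ideal.Quotient.mk_surjective y
  rw [Ideal.Quotient.factor_mk, Ideal.Quotient.eq_zero_iff_mem]
  constructor
  · intro h
    exact ⟨⟨r, h⟩, rfl⟩
  · rintro ⟨x, hx⟩
    rw [idealToQuot_apply, Ideal.Quotient.eq] at hx
    have := K.sub_mem x.2 (Ideal.mul_le_left hx)
    simpa using this

variable (A) in
/-- **Lemma Q.** If `K` is an invertible ideal and `R ⧸ K`, `R ⧸ P` are finite projective over
`A`, then so is `R ⧸ (K * P)`, and the ranks add. -/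
theorem quot_mul_finite_projective (K P : Ideal R) [Module.Invertible R K]
    [Module.Finite A (R ⧸ K)] [Module.Projective A (R ⧸ K)]
    [Module.Finite A (R ⧸ P)] [Module.Projective A (R ⧸ P)] :
    Module.Finite A (R ⧸ (K * P)) ∧ Module.Projective A (R ⧸ (K * P)) ∧
      ∀ p : PrimeSpectrum A, Module.rankAtStalk (R := A) (R ⧸ (K * P)) p =
        Module.rankAtStalk (R := A) (R ⧸ K) p + Module.rankAtStalk (R := A) (R ⧸ P) p := by
  classical
  let X := (R ⧸ P) ⊗[R] K
  have hXf : Module.Finite A X := Module.Finite.trans (R ⧸ P) X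
  have hXp : Module.Projective A X := projective_trans A (R ⧸ P) X
  have hXr : ∀ p : PrimeSpectrum A, Module.rankAtStalk (R := A) X p =
      Module.rankAtStalk (R := A) (R ⧸ P) p := fun p =>
    rankAtStalk_eq_of_invertible A (R ⧸ P) X p
  let j : X →ₗ[A] R ⧸ (K * P) := (quotMulMap K P).restrictScalars A
  let π : (R ⧸ (K * P)) →ₗ[A] R ⧸ K :=
    (Ideal.Quotient.factorₐ A (Ideal.mul_le_left : K * P ≤ K)).toLinearMap
  have hj : Function.Injective j := quotMulMap_injective K P
  have hex : Function.Exact j π := exact_quotMulMap K P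
  have hπ : Function.Surjective π :=
    Ideal.Quotient.factor_surjective (Ideal.mul_le_left : K * P ≤ K)
  obtain ⟨l, hl⟩ := Module.projective_lifting_property π LinearMap.id hπ
  let e : (R ⧸ (K * P)) ≃ₗ[A] X × (R ⧸ K) := (hex.splitSurjectiveEquiv hj ⟨l, hl⟩).1
  refine ⟨Module.Finite.equiv e.symm, Module.Projective.of_equiv e.symm, fun p => ?_⟩
  rw [Module.rankAtStalk_eq_of_equiv e, Module.rankAtStalk_prod, Pi.add_apply, hXr, add_comm]

variable (A) in
/-- **Lemma P.** A finite product of invertible ideals with quotients finite projective of rank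
one over `A` has a quotient which is finite projective of rank the number of factors. -/
theorem quot_prod_finite_projective {ι : Type*} (s : Finset ι) (K : ι → Ideal R)
    (hinv : ∀ i ∈ s, Module.Invertible R (K i))
    (hfin : ∀ i ∈ s, Module.Finite A (R ⧸ K i))
    (hproj : ∀ i ∈ s, Module.Projective A (R ⧸ K i))
    (hrank : ∀ i ∈ s, ∀ p : PrimeSpectrum A, Module.rankAtStalk (R := A) (R ⧸ K i) p = 1) :
    Module.Finite A (R ⧸ ∏ i ∈ s, K i) ∧ Module.Projective A (R ⧸ ∏ i ∈ s, K i) ∧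
      ∀ p : PrimeSpectrum A, Module.rankAtStalk (R := A) (R ⧸ ∏ i ∈ s, K i) p = s.card := by
  classical
  induction s using Finset.induction_on with
  | empty =>
    rw [Finset.prod_empty]
    have : Subsingleton (R ⧸ (1 : Ideal R)) :=
      Ideal.Quotient.subsingleton_iff.mpr Ideal.one_eq_top
    refine ⟨inferInstance, inferInstance, fun p => ?_⟩
    rw [Module.rankAtStalk_eq_zero_of_subsingleton]
    rfl
  | insert a s ha ih =>
    rw [Finset.prod_insert ha, Finset.card_insert_of_notMem ha]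
    obtain ⟨h1, h2, h3⟩ := ih (fun i hi => hinv i (Finset.mem_insert_of_mem hi))
      (fun i hi => hfin i (Finset.mem_insert_of_mem hi))
      (fun i hi => hproj i (Finset.mem_insert_of_mem hi))
      (fun i hi => hrank i (Finset.mem_insert_of_mem hi))
    have := hinv a (Finset.mem_insert_self a s)
    have := hfin a (Finset.mem_insert_self a s)
    have := hproj a (Finset.mem_insert_self a s)
    obtain ⟨g1, g2, g3⟩ := quot_mul_finite_projective A (K a) (∏ i ∈ s, K i)
    refine ⟨g1, g2, fun p => ?_⟩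
    rw [g3, h3, hrank a (Finset.mem_insert_self a s), add_comm]

end Abstract

/-! ## The point ideals of a curve chart -/

section Chart

variable {k : Type u} [Field k] [IsAlgClosed k]
  {B₀ B₁ B₀₁ : Type u} [CommRing B₀] [CommRing B₁] [CommRing B₀₁]
  [Algebra k B₀] [Algebra k B₁] [Algebra k B₀₁] [Algebra B₀ B₀₁] [Algebra B₁ B₀₁]
  [IsScalarTower k B₀ B₀₁] [IsScalarTower k B₁ B₀₁]
  {x : B₀} {y : B₁} {e : B₁ →ₐ[k] k}

omit [IsAlgClosed k] in
/-- The quotient by the ideal of a single point is `A`: finite projective of rank one. -/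
theorem quot_ker_ptHom (p : B₀ →ₐ[k] k) (A : Type u) [CommRing A] [Algebra k A] :
    Module.Finite A ((A ⊗[k] B₀) ⧸ RingHom.ker (ptHom p A)) ∧
      Module.Projective A ((A ⊗[k] B₀) ⧸ RingHom.ker (ptHom p A)) ∧
      ∀ P : PrimeSpectrum A,
        Module.rankAtStalk (R := A) ((A ⊗[k] B₀) ⧸ RingHom.ker (ptHom p A)) P = 1 := by
  let ε : ((A ⊗[k] B₀) ⧸ RingHom.ker (ptHom p A)) ≃ₐ[A] A :=
    Ideal.quotientKerAlgEquivOfSurjective (ptHom_surjective p A)
  refine ⟨Module.Finite.equiv ε.symm.toLinearEquiv,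
    Module.Projective.of_equiv ε.symm.toLinearEquiv, fun P => ?_⟩
  have : Nontrivial A := PrimeSpectrum.nonempty_iff_nontrivial.mp ⟨P⟩
  rw [Module.rankAtStalk_eq_of_equiv ε.toLinearEquiv, Module.rankAtStalk_self]
  rfl

/-- **SH2 (a)**: `(A ⊗ B₀) ⧸ ptIdeal q A` is finite projective of rank `m` over `A`. -/
theorem ptIdeal_quot (hC : IsCurveChart k B₀ B₁ B₀₁ x y e) {m : ℕ}
    (q : Fin m → (B₀ →ₐ[k] k)) (A : Type u) [CommRing A] [Algebra k A] :
    Module.Finite A ((A ⊗[k] B₀) ⧸ ptIdeal q A) ∧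
      Module.Projective A ((A ⊗[k] B₀) ⧸ ptIdeal q A) ∧
      ∀ P : PrimeSpectrum A,
        Module.rankAtStalk (R := A) ((A ⊗[k] B₀) ⧸ ptIdeal q A) P = m := by
  have h := quot_prod_finite_projective A (Finset.univ : Finset (Fin m))
    (fun i => RingHom.ker (ptHom (q i) A))
    (fun i _ => ker_ptHom_invertible hC (q i) A)
    (fun i _ => (quot_ker_ptHom (q i) A).1)
    (fun i _ => (quot_ker_ptHom (q i) A).2.1)
    (fun i _ => (quot_ker_ptHom (q i) A).2.2)
  rw [Finset.card_univ, Fintype.card_fin] at h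
  exact h

theorem ptIdeal_quot_finite (hC : IsCurveChart k B₀ B₁ B₀₁ x y e) {m : ℕ}
    (q : Fin m → (B₀ →ₐ[k] k)) (A : Type u) [CommRing A] [Algebra k A] :
    Module.Finite A ((A ⊗[k] B₀) ⧸ ptIdeal q A) := (ptIdeal_quot hC q A).1

theorem ptIdeal_quot_projective (hC : IsCurveChart k B₀ B₁ B₀₁ x y e) {m : ℕ}
    (q : Fin m → (B₀ →ₐ[k] k)) (A : Type u) [CommRing A] [Algebra k A] :
    Module.Projective A ((A ⊗[k] B₀) ⧸ ptIdeal q A) := (ptIdeal_quot hC q A).2.1

theorem ptIdeal_quot_rankAtStalk (hC : IsCurveChart k B₀ B₁ B₀₁ x y e) {m : ℕ}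
    (q : Fin m → (B₀ →ₐ[k] k)) (A : Type u) [CommRing A] [Algebra k A]
    (P : PrimeSpectrum A) :
    Module.rankAtStalk (R := A) ((A ⊗[k] B₀) ⧸ ptIdeal q A) P = m :=
  (ptIdeal_quot hC q A).2.2 P

/-- **SH2 (b)**: `ptIdeal q A` is an invertible `A ⊗ B₀`-module. -/
theorem ptIdeal_invertible (hC : IsCurveChart k B₀ B₁ B₀₁ x y e) {m : ℕ}
    (q : Fin m → (B₀ →ₐ[k] k)) (A : Type u) [CommRing A] [Algebra k A] :
    Module.Invertible (A ⊗[k] B₀) (ptIdeal q A) := by
  have := diagonal_invertible_of_isCurveChart hC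
  have := ptIdeal_quot_finite hC q A
  have := ptIdeal_quot_projective hC q A
  exact hilb_invertible k A B₀ (ptIdeal q A)

section BaseChange

variable {A A' : Type u} [CommRing A] [Algebra k A] [CommRing A'] [Algebra k A']

omit [IsAlgClosed k] in
theorem ptHom_tensorMapLeft (p : B₀ →ₐ[k] k) (ψ : A →ₐ[k] A') (z : A ⊗[k] B₀) :
    ptHom p A' (tensorMapLeft k ψ B₀ z) = ψ (ptHom p A z) := by
  induction z using TensorProduct.induction_on with
  | zero => simp
  | tmul a b =>
    change ptHom p A' (ψ a ⊗ₜ[k] b) = _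
    rw [ptHom_tmul, ptHom_tmul, map_mul, AlgHom.commutes]
  | add z w hz hw => rw [map_add, map_add, hz, hw, map_add, map_add]

omit [IsAlgClosed k] in
theorem sub_ptHom_mem_map (p : B₀ →ₐ[k] k) (ψ : A →ₐ[k] A') (z : A' ⊗[k] B₀) :
    z - ptHom p A' z ⊗ₜ[k] (1 : B₀) ∈
      (RingHom.ker (ptHom p A)).map (tensorMapLeft k ψ B₀) := by
  induction z using TensorProduct.induction_on with
  | zero => simp
  | tmul a b =>
    have h1 : (1 : A) ⊗ₜ[k] b - algebraMap k A (p b) ⊗ₜ[k] (1 : B₀) ∈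
        RingHom.ker (ptHom p A) := by
      rw [RingHom.mem_ker, map_sub, ptHom_tmul, ptHom_tmul, map_one, map_one, one_mul, mul_one,
        sub_self]
    have h2 := Ideal.mul_mem_left _ (a ⊗ₜ[k] (1 : B₀))
      (Ideal.mem_map_of_mem (tensorMapLeft k ψ B₀) h1)
    convert h2 using 1
    have e1 : tensorMapLeft k ψ B₀ ((1 : A) ⊗ₜ[k] b) = (ψ 1) ⊗ₜ[k] b := rfl
    have e2 : tensorMapLeft k ψ B₀ (algebraMap k A (p b) ⊗ₜ[k] (1 : B₀)) =
        (ψ (algebraMap k A (p b))) ⊗ₜ[k] (1 : B₀) := rfl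
    rw [map_sub, e1, e2, ptHom_tmul, map_one, AlgHom.commutes, mul_sub,
      Algebra.TensorProduct.tmul_mul_tmul, Algebra.TensorProduct.tmul_mul_tmul, mul_one,
      one_mul, mul_one]
  | add z w hz hw =>
    have := Ideal.add_mem _ hz hw
    convert this using 1
    rw [map_add, TensorProduct.add_tmul]
    abel

omit [IsAlgClosed k] in
/-- The ideal of a point commutes with base change. -/
theorem ker_ptHom_map (p : B₀ →ₐ[k] k) (ψ : A →ₐ[k] A') :
    (RingHom.ker (ptHom p A)).map (tensorMapLeft k ψ B₀) = RingHom.ker (ptHom p A') := by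
  apply le_antisymm
  · rw [Ideal.map_le_iff_le_comap]
    intro z hz
    rw [Ideal.mem_comap, RingHom.mem_ker, ptHom_tensorMapLeft, (RingHom.mem_ker).mp hz, map_zero]
  · intro z hz
    have h := sub_ptHom_mem_map p ψ z
    rwa [(RingHom.mem_ker).mp hz, TensorProduct.zero_tmul, sub_zero] at h

omit [IsAlgClosed k] in
/-- **SH2 (c)**: `ptIdeal` commutes with base change. -/
theorem ptIdeal_map {m : ℕ} (q : Fin m → (B₀ →ₐ[k] k)) (ψ : A →ₐ[k] A') :
    (ptIdeal q A).map (tensorMapLeft k ψ B₀) = ptIdeal q A' := by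
  unfold ptIdeal
  rw [← Ideal.mapHom_apply, map_prod]
  exact Finset.prod_congr rfl fun i _ => ker_ptHom_map (q i) ψ

omit [IsAlgClosed k] in
/-- **SH2 (c')**: `ptIdeal` commutes with base change (`H491.bc` form). -/
theorem ptIdeal_map_bc {m : ℕ} (q : Fin m → (B₀ →ₐ[k] k)) (ψ : A →ₐ[k] A') :
    (ptIdeal q A).map (H491.bc B₀ ψ) = ptIdeal q A' :=
  ptIdeal_map q ψ

end BaseChange

/-- **SH2 (d)**: `N₀ ⧸ I_q N₀` is finite projective of rank `m` over `A`. -/
theorem vanq_quot (hC : IsCurveChart k B₀ B₁ B₀₁ x y e) {m : ℕ}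
    (q : Fin m → (B₀ →ₐ[k] k)) {A : Type u} [CommRing A] [Algebra k A]
    (G : CurveGD k B₀ B₁ B₀₁ A) :
    Module.Finite A (G.N₀ ⧸ vanq q G) ∧ Module.Projective A (G.N₀ ⧸ vanq q G) ∧
      ∀ P : PrimeSpectrum A, Module.rankAtStalk (R := A) (G.N₀ ⧸ vanq q G) P = m := by
  have := G.invertible₀
  have := ptIdeal_quot_finite hC q A
  have := ptIdeal_quot_projective hC q A
  let Q := (A ⊗[k] B₀) ⧸ ptIdeal q A
  let X := Q ⊗[A ⊗[k] B₀] G.N₀
  have hXf : Module.Finite A X := Module.Finite.trans Q X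
  have hXp : Module.Projective A X := projective_trans A Q X
  have hXr : ∀ P : PrimeSpectrum A, Module.rankAtStalk (R := A) X P = m := fun P => by
    rw [rankAtStalk_eq_of_invertible A Q X P, ptIdeal_quot_rankAtStalk hC q A P]
  let ε : X ≃ₗ[A] G.N₀ ⧸ vanq q G :=
    (TensorProduct.quotTensorEquivQuotSMul G.N₀ (ptIdeal q A)).restrictScalars A
  refine ⟨Module.Finite.equiv ε, Module.Projective.of_equiv ε, fun P => ?_⟩
  rw [← Module.rankAtStalk_eq_of_equiv ε, hXr]

end Chart

end

end Fermat.Agent.S25.H431
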