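/-
S25 / block ALGCHARTS, core of C2 (helper431): finiteness of a "skyscraper" supported away from
the divisor `y = 0`.

Two charts `R₀ ∋ x`, `R₁ ∋ y` with `x y = 1` on the intersection `R₀₁`, `R₀` finite over `A[x]`,
`R₁` finite over `A[y]`.  If `Q₀`, `Q₁` are finitely generated modules on the two charts with the
same restriction `Q₀₁` to the intersection, and `Q₁ = y Q₁`, then `Q₀` is a finite `A`-module.
-/
import Mathlib

set_option autoImplicit false

open Polynomial

namespace Fermat.Agent.S25.H431

section MonicKill

variable {A : Type*} [CommRing A] {Q : Type*} [AddCommGroup Q] [Module A[X] Q] [Module A Q]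
  [IsScalarTower A A[X] Q]

/-- A finitely generated `A[X]`-module killed by a monic polynomial is a finite `A`-module. -/
theorem finite_of_monic_smul_eq_zero [Module.Finite A[X] Q] (F : A[X]) (hF : F.Monic)
    (hkill : ∀ q : Q, F • q = 0) : Module.Finite A Q := by
  classical
  obtain ⟨S, hS⟩ := (Module.Finite.fg_top : (⊤ : Submodule A[X] Q).FG)
  -- generators `X ^ j • q`, `j < deg F`, `q ∈ S`
  let T : Finset Q := (Finset.range F.natDegree ×ˢ S).image fun jq => (X ^ jq.1 : A[X]) • jq.2
  refine ⟨⟨T, ?_⟩⟩
  rw [eq_top_iff]
  -- every `g • q` with `q ∈ S` lies in the `A`-span of `T`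
  have key : ∀ (g : A[X]) (q : Q), q ∈ S → g • q ∈ Submodule.span A (T : Set Q) := by
    intro g q hq
    have h1 : g • q = (g %ₘ F) • q := by
      conv_lhs => rw [← Polynomial.modByMonic_add_div g F]
      rw [add_smul, mul_smul, smul_comm, hkill, smul_zero, add_zero]
    rw [h1]
    have hdeg : (g %ₘ F).natDegree < F.natDegree ∨ F.natDegree = 0 := by
      by_cases h0 : F.natDegree = 0
      · exact Or.inr h0
      · left
        rcases subsingleton_or_nontrivial A with hA | hA
        · have : (g %ₘ F) = 0 := Subsingleton.elim _ _
          rw [this, natDegree_zero]; omega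
        · exact Polynomial.natDegree_modByMonic_lt g hF (fun h => h0 (by rw [h, natDegree_one]))
    rcases hdeg with hdeg | h0
    · rw [(g %ₘ F).as_sum_range' F.natDegree hdeg, Finset.sum_smul]
      refine Submodule.sum_mem _ fun j hj => ?_
      rw [← Polynomial.C_mul_X_pow_eq_monomial, mul_smul, ← Polynomial.algebraMap_eq,
        algebraMap_smul]
      refine Submodule.smul_mem _ _ (Submodule.subset_span ?_)
      exact Finset.mem_coe.mpr (Finset.mem_image.mpr ⟨(j, q), Finset.mk_mem_product hj hq, rfl⟩)
    · -- `F = 1`, so `Q = 0`
      have hF1 : F = 1 := Polynomial.eq_one_of_monic_natDegree_zero hF h0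
      have hq0 : q = 0 := by
        have := hkill q
        rwa [hF1, one_smul] at this
      rw [hq0, smul_zero]
      exact Submodule.zero_mem _
  intro q hq0
  clear hq0
  have hq : q ∈ Submodule.span A[X] (S : Set Q) := by rw [hS]; trivial
  have hall : ∀ g : A[X], g • q ∈ Submodule.span A (T : Set Q) := by
    induction hq using Submodule.span_induction with
    | mem q hq => exact fun g => key g q hq
    | zero => exact fun g => by rw [smul_zero]; exact Submodule.zero_mem _
    | add a b _ _ ha hb => exact fun g => by rw [smul_add]; exact Submodule.add_mem _ (ha g) (hb g)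
    | smul g' a _ ha => exact fun g => by rw [← mul_smul]; exact ha (g * g')
  simpa using hall 1

end MonicKill

end Fermat.Agent.S25.H431
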