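/-
S25 / block ALGCHARTS, core of C2 (helper431): a fibrewise nonzero section of an invertible module
over a family of affine curves is universally injective, with flat cokernel.

`R` is an `A[X]`-algebra, finite free as an `A[X]`-module, whose fibres `R ⊗[A] κ(p)` are domains;
`N` is an invertible `R`-module and `s : N` is nonzero in every fibre `N ⊗[A] κ(p)`.  Then
`z ↦ s • z : R ⊗[A] M → N ⊗[A] M` is injective for every `A`-module `M`, and `N ⧸ R s` is flat
over `A`.  This generalises leaf E4 (`H910/McCoy.lean`, the case `N = R`).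
-/
import Mathlib
import Fermat.Agent.S25.H910.McCoy
import Fermat.Agent.S25.H431.Diagonal

set_option autoImplicit false

open Polynomial TensorProduct

namespace Fermat.Agent.S25.H431

section Combine

variable {A : Type*} [CommRing A] {Z : Type*} [AddCommGroup Z] [Module A[X] Z]

/-- Finitely many polynomials killing `z` can be combined into one polynomial killing `z` whose
coefficients generate the ideal of all the coefficients. -/
theorem exists_poly_combine {ι : Type*} (S : Finset ι) (d : ι → A[X]) (z : Z)
    (hz : ∀ i ∈ S, d i • z = 0) :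
    ∃ D : A[X], D • z = 0 ∧ ∀ i ∈ S, ∀ j, (d i).coeff j ∈ Ideal.span (Set.range D.coeff) := by
  classical
  induction S using Finset.induction_on with
  | empty => exact ⟨0, zero_smul _ _, fun i hi => absurd hi (Finset.notMem_empty i)⟩
  | insert a S ha ih =>
    obtain ⟨D', hD', hc⟩ := ih fun i hi => hz i (Finset.mem_insert_of_mem hi)
    set n := (d a).natDegree + 1 with hn
    refine ⟨d a + X ^ n * D', ?_, ?_⟩
    · rw [add_smul, mul_smul, hD', smul_zero, add_zero]
      exact hz a (Finset.mem_insert_self a S)
    · have hlow : ∀ j, j < n → (d a + X ^ n * D').coeff j = (d a).coeff j := by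
        intro j hj
        rw [coeff_add, coeff_X_pow_mul', if_neg (by omega), add_zero]
      have hhigh : ∀ j, (d a + X ^ n * D').coeff (j + n) = D'.coeff j := by
        intro j
        rw [coeff_add, coeff_X_pow_mul', if_pos (by omega),
          coeff_eq_zero_of_natDegree_lt (by omega), zero_add, Nat.add_sub_cancel]
      have hD'le : Ideal.span (Set.range D'.coeff) ≤
          Ideal.span (Set.range (d a + X ^ n * D').coeff) := by
        rw [Ideal.span_le]
        rintro _ ⟨j, rfl⟩
        exact Ideal.subset_span ⟨j + n, hhigh j⟩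
      intro i hi j
      rcases Finset.mem_insert.mp hi with rfl | hi
      · by_cases hj : j < n
        · exact Ideal.subset_span ⟨j, hlow j hj⟩
        · rw [coeff_eq_zero_of_natDegree_lt (by omega)]
          exact Ideal.zero_mem _
      · exact hD'le (hc i hi j)

end Combine

section FlatCoker

universe uA uP uN

variable {A : Type uA} [CommRing A] {P : Type uP} [AddCommGroup P] [Module A P]
  {N : Type uN} [AddCommGroup N] [Module A N]

/-- A universally injective map into a flat module has a flat cokernel (diagram chase). -/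
theorem flat_quotient_range_of_rTensor_injective [Module.Flat A N] (u : P →ₗ[A] N)
    (hu : ∀ (L : Type (max uA uN)) [AddCommGroup L] [Module A L],
      Function.Injective (LinearMap.rTensor L u)) :
    Module.Flat A (N ⧸ LinearMap.range u) := by
  set Q := N ⧸ LinearMap.range u
  let π : N →ₗ[A] Q := (LinearMap.range u).mkQ
  have hπ : Function.Surjective π := Submodule.mkQ_surjective _
  have hex : Function.Exact u π := by
    intro x
    rw [Submodule.mkQ_apply, Submodule.Quotient.mk_eq_zero]
    rfl
  rw [Module.Flat.iff_lTensor_preserves_injective_linearMap]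
  intro L L' _ _ _ _ j hj
  rw [injective_iff_map_eq_zero]
  intro z hz
  obtain ⟨z', rfl⟩ := LinearMap.rTensor_surjective L hπ z
  have hexL := rTensor_exact L hex hπ
  have hexL' := rTensor_exact L' hex hπ
  have h1 : LinearMap.rTensor L' π (LinearMap.lTensor N j z') = 0 := by
    rw [← LinearMap.comp_apply, LinearMap.rTensor_comp_lTensor, ← LinearMap.lTensor_comp_rTensor,
      LinearMap.comp_apply, hz]
  obtain ⟨w, hw⟩ := (hexL' _).mp h1
  let q := (LinearMap.range j).mkQ
  have hq : Function.Surjective q := Submodule.mkQ_surjective _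
  have hexj : Function.Exact j q := by
    intro x
    rw [Submodule.mkQ_apply, Submodule.Quotient.mk_eq_zero]
    rfl
  have hexR := lTensor_exact P hexj hq
  have hexN := lTensor_exact N hexj hq
  have h2 : LinearMap.rTensor (L' ⧸ LinearMap.range j) u (LinearMap.lTensor P q w) = 0 := by
    rw [← LinearMap.comp_apply, LinearMap.rTensor_comp_lTensor, ← LinearMap.lTensor_comp_rTensor,
      LinearMap.comp_apply, hw]
    exact (hexN _).mpr ⟨z', rfl⟩
  have h3 : LinearMap.lTensor P q w = 0 := hu _ (h2.trans (map_zero _).symm)
  obtain ⟨u₀, hu₀⟩ := (hexR _).mp h3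
  have h4 : LinearMap.lTensor N j (z' - LinearMap.rTensor L u u₀) = 0 := by
    rw [map_sub, ← LinearMap.comp_apply (LinearMap.lTensor N j), LinearMap.lTensor_comp_rTensor,
      ← LinearMap.rTensor_comp_lTensor, LinearMap.comp_apply, hu₀, hw, sub_self]
  have h5 : z' = LinearMap.rTensor L u u₀ := by
    have := (Module.Flat.lTensor_preserves_injective_linearMap (M := N) j hj)
    have h6 := this (h4.trans (map_zero _).symm)
    exact sub_eq_zero.mp h6
  rw [h5]
  exact (hexL _).mpr ⟨u₀, rfl⟩

end FlatCoker

section Section

variable {A : Type*} [CommRing A] {R : Type*} [CommRing R] [Algebra A[X] R]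
  [Module.Free A[X] R] [Module.Finite A[X] R] [Algebra A R] [IsScalarTower A A[X] R]
  {N : Type*} [AddCommGroup N] [Module R N] [Module A N] [IsScalarTower A R N]

/-- Multiplication by the section `s`, as an `A`-linear map `R → N`. -/
noncomputable def secMap (s : N) : R →ₗ[A] N :=
  (LinearMap.toSpanSingleton R N s).restrictScalars A

omit [Algebra A[X] R] [Module.Free A[X] R] [Module.Finite A[X] R] [IsScalarTower A A[X] R] in
theorem secMap_apply (s : N) (r : R) : secMap (A := A) (R := R) s r = r • s := rfl

variable {M : Type*} [AddCommGroup M] [Module A M]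

omit [Algebra A[X] R] [Module.Free A[X] R] [Module.Finite A[X] R] [IsScalarTower A A[X] R] in
/-- If `s ⊗ z = 0` then `φ s • z = 0` for every functional `φ`. -/
theorem smul_eq_zero_of_rTensor_secMap (s : N) (φ : Module.Dual R N) (z : R ⊗[A] M)
    (hz : LinearMap.rTensor M (secMap (A := A) (R := R) s) z = 0) : φ s • z = 0 := by
  have key : ∀ w : R ⊗[A] M, LinearMap.rTensor M (φ.restrictScalars A)
      (LinearMap.rTensor M (secMap (A := A) (R := R) s) w) = φ s • w := by
    intro w
    induction w using TensorProduct.induction_on with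
    | zero => simp
    | tmul r m =>
      simp only [LinearMap.rTensor_tmul, secMap_apply, LinearMap.restrictScalars_apply, map_smul,
        smul_eq_mul, TensorProduct.smul_tmul', mul_comm]
    | add x y hx hy => simp only [map_add, hx, hy, smul_add]
  rw [← key, hz, map_zero]

/-- If `f` kills `z`, so does its norm. -/
theorem norm_smul_eq_zero (f : R) (z : R ⊗[A] M) (hz : f • z = 0) :
    Algebra.norm A[X] f • z = 0 := by
  obtain ⟨g, hg⟩ := H910.exists_adjugate (A := A) f
  let G : R ⊗[A] M →ₗ[A[X]] R ⊗[A] M := TensorProduct.AlgebraTensorModule.map g LinearMap.id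
  have hG : ∀ w : R ⊗[A] M, G (f • w) = Algebra.norm A[X] f • w := by
    intro w
    induction w using TensorProduct.induction_on with
    | zero => simp
    | tmul r m =>
      simp only [G, TensorProduct.smul_tmul', smul_eq_mul,
        TensorProduct.AlgebraTensorModule.map_tmul, hg, LinearMap.id_apply]
    | add x y hx hy => rw [smul_add, map_add, hx, hy, smul_add]
  rw [← hG, hz, map_zero]

variable [Module.Invertible R N]

omit [Algebra A[X] R] [Module.Free A[X] R] [Module.Finite A[X] R] [Algebra A R]
  [IsScalarTower A A[X] R] [Module A N] [IsScalarTower A R N] in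
/-- Decomposition of a section along a "partition of unity" of an invertible module. -/
theorem exists_finset_section_decomp (s : N) :
    ∃ S : Finset (Module.Dual R N × N), s = ∑ i ∈ S, (i.1 s) • i.2 := by
  obtain ⟨S, hS⟩ := ((Module.Invertible.linearEquiv R N).symm 1).exists_finset
  have h1 : (1 : R) = ∑ i ∈ S, i.1 i.2 := by
    simpa [LinearEquiv.symm_apply_eq, Module.Invertible.linearEquiv] using hS
  refine ⟨S, ?_⟩
  calc s = (1 : R) • s := (one_smul R s).symm
    _ = ∑ i ∈ S, (i.1 i.2) • s := by rw [h1, Finset.sum_smul]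
    _ = ∑ i ∈ S, (i.1 s) • i.2 :=
        Finset.sum_congr rfl fun i _ => dual_apply_smul_comm i.1 i.2 s

omit [Algebra A[X] R] [Module.Free A[X] R] [Module.Finite A[X] R] [IsScalarTower A A[X] R]
  [Module.Invertible R N] in
/-- If `s = ∑ fᵢ • nᵢ` is nonzero in the fibre `N ⊗[A] K`, some `fᵢ` is nonzero in `R ⊗[A] K`. -/
theorem exists_tmul_ne_zero_of_decomp (K : Type*) [CommRing K] [Algebra A K] (s : N)
    (S : Finset (Module.Dual R N × N)) (hS : s = ∑ i ∈ S, (i.1 s) • i.2)
    (hs : (s ⊗ₜ[A] (1 : K)) ≠ 0) : ∃ i ∈ S, ((i.1 s) ⊗ₜ[A] (1 : K)) ≠ 0 := by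
  by_contra hcon
  push Not at hcon
  apply hs
  rw [hS, TensorProduct.sum_tmul]
  refine Finset.sum_eq_zero fun i hi => ?_
  have h := congrArg (LinearMap.rTensor K (secMap (A := A) (R := R) i.2)) (hcon i hi)
  rw [LinearMap.rTensor_tmul, secMap_apply, map_zero] at h
  exact h

/-- **Core of C2.**  A section of an invertible module which is nonzero on every fibre is
universally injective over `A`. -/
theorem rTensor_secMap_injective
    (hdom : ∀ (p : Ideal A) [p.IsPrime], IsDomain (R ⊗[A] p.ResidueField)) (s : N)
    (hs : ∀ (p : Ideal A) [p.IsPrime], (s ⊗ₜ[A] (1 : p.ResidueField)) ≠ 0)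
    (M : Type*) [AddCommGroup M] [Module A M] :
    Function.Injective (LinearMap.rTensor M (secMap (A := A) (R := R) s)) := by
  classical
  rw [injective_iff_map_eq_zero]
  intro z hz
  obtain ⟨S, hS⟩ := exists_finset_section_decomp (R := R) s
  have hkill : ∀ i ∈ S, Algebra.norm A[X] (i.1 s) • z = 0 := fun i _ =>
    norm_smul_eq_zero (i.1 s) z (smul_eq_zero_of_rTensor_secMap s i.1 z hz)
  obtain ⟨D, hD, hc⟩ := exists_poly_combine S (fun i => Algebra.norm A[X] (i.1 s)) z hkill
  have hprim : Ideal.span (Set.range D.coeff) = ⊤ := by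
    by_contra hne
    obtain ⟨m, hm, hle⟩ := Ideal.exists_le_maximal _ hne
    have hmp : m.IsPrime := hm.isPrime
    have := hdom m
    obtain ⟨i, hi, hne0⟩ := exists_tmul_ne_zero_of_decomp m.ResidueField s S hS (hs m)
    have hreg : IsSMulRegular (R ⊗[A] m.ResidueField) (i.1 s) :=
      H910.isSMulRegular_of_tmul_one_mem_nonZeroDivisors m.ResidueField (i.1 s)
        (mem_nonZeroDivisors_of_ne_zero hne0)
    obtain ⟨j, hj⟩ := H910.exists_coeff_norm_ne_zero_of_isSMulRegular (A := A)
      m.ResidueField (i.1 s) hreg
    apply hj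
    rw [Ideal.algebraMap_residueField_eq_zero]
    exact hle (hc i hi j)
  exact H910.tensor_eq_zero_of_polySmul_eq_zero D hprim z hD

omit [Algebra A[X] R] [Module.Free A[X] R] [Module.Finite A[X] R] [IsScalarTower A A[X] R]
  [Module.Invertible R N] in
theorem range_secMap (s : N) :
    LinearMap.range (secMap (A := A) (R := R) s) = (Submodule.span R {s}).restrictScalars A := by
  ext n
  simp only [LinearMap.mem_range, secMap_apply, Submodule.restrictScalars_mem,
    Submodule.mem_span_singleton]

/-- **Core of C2**, injectivity: `r ↦ r • s` is injective. -/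
theorem secMap_injective
    (hdom : ∀ (p : Ideal A) [p.IsPrime], IsDomain (R ⊗[A] p.ResidueField)) (s : N)
    (hs : ∀ (p : Ideal A) [p.IsPrime], (s ⊗ₜ[A] (1 : p.ResidueField)) ≠ 0) :
    Function.Injective (secMap (A := A) (R := R) s) := by
  have h := rTensor_secMap_injective hdom s hs A
  intro r r' hrr'
  have h1 : LinearMap.rTensor A (secMap (A := A) (R := R) s) (r ⊗ₜ 1) =
      LinearMap.rTensor A (secMap (A := A) (R := R) s) (r' ⊗ₜ 1) := by
    rw [LinearMap.rTensor_tmul, LinearMap.rTensor_tmul, hrr']
  have h2 := h h1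
  have h3 := congrArg (TensorProduct.rid A R) h2
  simpa using h3

/-- **Core of C2**, flatness: the cokernel of a fibrewise nonzero section is flat over `A`. -/
theorem flat_quotient_secMap
    (hdom : ∀ (p : Ideal A) [p.IsPrime], IsDomain (R ⊗[A] p.ResidueField)) (s : N)
    (hs : ∀ (p : Ideal A) [p.IsPrime], (s ⊗ₜ[A] (1 : p.ResidueField)) ≠ 0) :
    Module.Flat A (N ⧸ LinearMap.range (secMap (A := A) (R := R) s)) := by
  have hRflat : Module.Flat A R := Module.Flat.trans A A[X] R
  have hNflat : Module.Flat A N := Module.Flat.trans A R N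
  exact flat_quotient_range_of_rTensor_injective _ fun L _ _ =>
    rTensor_secMap_injective hdom s hs L

end Section

end Fermat.Agent.S25.H431
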