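/-
S25 / block HILB (helper431): leaf H2 in the exact shape of the HILB skeleton
(`HilbSkel.diagonal_invertible`).
-/
import Mathlib
import Fermat.Agent.S25.H431.Diagonal
import Fermat.Agent.S25.H551.Invertible

set_option autoImplicit false

open TensorProduct

universe u

namespace Fermat.Agent.S25.H431

/-- **H2**, exact statement of the HILB skeleton. -/
theorem diagonal_invertible_skel (k : Type u) [Field k] (B : Type u) [CommRing B] [Algebra k B]
    [Algebra.FiniteType k B] [IsDomain (B ⊗[k] B)]
    [Module.Finite B Ω[B⁄k]] [Module.Projective B Ω[B⁄k]]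
    (hrank : ∀ p : PrimeSpectrum B, Module.rankAtStalk (R := B) Ω[B⁄k] p = 1) :
    Module.Invertible (B ⊗[k] B) (KaehlerDifferential.ideal k B) := by
  have : Module.Invertible B Ω[B⁄k] :=
    Fermat.Agent.S25.H551.invertible_of_rankAtStalk_eq_one _ hrank
  exact diagonal_invertible k B

end Fermat.Agent.S25.H431
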